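import Fermat.Agent.Amenable.Free
import Mathlib.Algebra.Group.Pointwise.Finset.Basic
import Mathlib.Combinatorics.Hall.Basic
import Mathlib.Analysis.SpecificLimits.Normed

/-!
# Følner sets and paradoxical decompositions

Følner sets give an invariant mean. Without them some finite set doubles every finite set, and
Hall's marriage theorem then gives a paradoxical decomposition, which excludes a mean.
-/

set_option autoImplicit false

noncomputable section

open Filter Function
open scoped Topology Pointwise

namespace FA.Amenable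

variable (G : Type*) [Group G]

/-- Almost invariant finite sets exist. -/
def IsFolner [DecidableEq G] : Prop :=
  ∀ (S : Finset G) (ε : ℝ), 0 < ε → ∃ F : Finset G, F.Nonempty ∧
    ∀ s ∈ S, (((F.image (s * ·)) \ F).card : ℝ) ≤ ε * F.card

/-- Two partitions whose translates are all pairwise disjoint. -/
def IsParadoxical : Prop :=
  ∃ (k l : ℕ) (A : Fin k → Set G) (B : Fin l → Set G) (a : Fin k → G) (b : Fin l → G),
    Pairwise (Disjoint on A) ∧ (⋃ i, A i) = Set.univ ∧
    Pairwise (Disjoint on B) ∧ (⋃ j, B j) = Set.univ ∧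
    Pairwise (Disjoint on Sum.elim (fun i => (a i * ·) '' A i) (fun j => (b j * ·) '' B j))

variable {G} [DecidableEq G]

/-- **Følner sets give an invariant mean.** -/
theorem IsFolner.hasMean (h : IsFolner G) : HasMean G := by
  choose F hF hS using fun i : Finset G × ℕ => h i.1 (1 / ((i.2 : ℝ) + 1)) (by positivity)
  have hc : ∀ i, (0 : ℝ) < (F i).card := fun i => by exact_mod_cast (hF i).card_pos
  refine hasMean_of_asymptotic ((atTop : Filter (Finset G)) ×ˢ (atTop : Filter ℕ))
    (fun i f => (∑ x ∈ F i, f x) / (F i).card) (fun i => ⟨fun f g _ _ => ?_, fun f _ h0 => ?_, ?_⟩)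
    fun g f ⟨k, hk⟩ => ?_
  · simp [Finset.sum_add_distrib, add_div]
  · exact div_nonneg (Finset.sum_nonneg fun x _ => h0 x) (hc i).le
  · simp [(hc i).ne']
  refine squeeze_zero_norm' ((tendsto_fst.eventually (eventually_ge_atTop {g})).mono fun i hi => ?_)
    ((tendsto_const_div_atTop_nhds_zero_nat (2 * (k : ℝ))).comp
      ((tendsto_add_atTop_nat 1).comp tendsto_snd))
  rw [Real.norm_eq_abs]
  simp only [Function.comp_apply, Nat.cast_add, Nat.cast_one]
  rw [← sub_div, abs_div, abs_of_pos (hc i), div_le_iff₀ (hc i)]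
  have e : ((F i).image (g * ·)).card = (F i).card :=
    Finset.card_image_of_injective _ (mul_right_injective g)
  have hb := hS i g (Finset.singleton_subset_iff.1 hi)
  have hsum : ∀ B : Finset G, |∑ x ∈ B, f x| ≤ k * (B.card : ℝ) := fun B => by
    refine (Finset.abs_sum_le_sum_abs _ _).trans ((Finset.sum_le_sum fun x _ => hk x).trans ?_)
    rw [Finset.sum_const, nsmul_eq_mul, mul_comm]
  rw [← Finset.sum_image (f := f) (fun x _ y _ => fun hxy => mul_left_cancel hxy),
    ← Finset.sum_sdiff_sub_sum_sdiff]
  refine (abs_sub _ _).trans ((add_le_add (hsum _) (hsum _)).trans ?_)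
  rw [Finset.card_sdiff_comm e.symm, ← two_mul, ← mul_assoc]
  calc _ ≤ 2 * (k : ℝ) * (1 / ((i.2 : ℝ) + 1) * (F i).card) := by gcongr
    _ = _ := by ring

/-- One almost invariance failure makes a finite set double every finite set. -/
theorem exists_doubling (h : ¬ IsFolner G) :
    ∃ U : Finset G, ∀ F : Finset G, F.Nonempty → 2 * F.card ≤ (U * F).card := by
  unfold IsFolner at h
  push Not at h
  obtain ⟨S, ε, hε, hS⟩ := h
  let T := insert 1 S
  have grow : ∀ F : Finset G, F.Nonempty → (1 + ε) * F.card ≤ ((T * F).card : ℝ) := fun F hF => by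
    obtain ⟨s, hs, hlt⟩ := hS F hF
    have hsub : F ∪ (F.image (s * ·) \ F) ⊆ T * F := by
      intro x hx
      rcases Finset.mem_union.1 hx with hx | hx
      · simpa using Finset.mul_mem_mul (Finset.mem_insert_self 1 S) hx
      · obtain ⟨y, hy, rfl⟩ := Finset.mem_image.1 (Finset.mem_sdiff.1 hx).1
        exact Finset.mul_mem_mul (Finset.mem_insert_of_mem hs) hy
    have := Finset.card_le_card hsub
    rw [Finset.card_union_of_disjoint Finset.disjoint_sdiff] at this
    have : (F.card : ℝ) + ((F.image (s * ·) \ F).card : ℝ) ≤ (T * F).card := by exact_mod_cast this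
    linarith
  have iter : ∀ m : ℕ, ∀ F : Finset G, F.Nonempty →
      (1 + ε) ^ m * F.card ≤ ((T ^ m * F).card : ℝ) := by
    intro m
    induction m with
    | zero => intro F _; simp
    | succ m ih =>
      intro F hF
      rw [pow_succ', pow_succ' T, mul_assoc, mul_assoc]
      refine le_trans ?_ (grow _ ((Finset.insert_nonempty 1 S).pow.mul hF))
      exact mul_le_mul_of_nonneg_left (ih F hF) (by linarith)
  obtain ⟨m, hm⟩ := pow_unbounded_of_one_lt (2 : ℝ) (by linarith : (1 : ℝ) < 1 + ε)
  refine ⟨T ^ m, fun F hF => ?_⟩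
  exact_mod_cast (mul_le_mul_of_nonneg_right hm.le (Nat.cast_nonneg _)).trans (iter m F hF)

/-- **No Følner sets gives a paradoxical decomposition.** -/
theorem isParadoxical_of_not_isFolner (h : ¬ IsFolner G) : IsParadoxical G := by
  obtain ⟨U, hU⟩ := exists_doubling h
  obtain ⟨φ, hinj, hmem⟩ := (Finset.all_card_le_biUnion_card_iff_exists_injective
    fun p : G × Bool => U.image (· * p.1)).1 fun s => by
      rcases s.eq_empty_or_nonempty with rfl | hs
      · simp
      have e : U * s.image Prod.fst = s.biUnion fun p => U.image (· * p.1) := by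
        ext x
        simp only [Finset.mem_mul, Finset.mem_image, Finset.mem_biUnion]
        exact ⟨fun ⟨u, hu, _, ⟨p, hp, rfl⟩, e⟩ => ⟨p, hp, u, hu, e⟩,
          fun ⟨p, hp, u, hu, e⟩ => ⟨u, hu, p.1, ⟨p, hp, rfl⟩, e⟩⟩
      calc s.card ≤ (s.image Prod.fst ×ˢ (Finset.univ : Finset Bool)).card :=
            Finset.card_le_card fun p hp =>
              Finset.mem_product.2 ⟨Finset.mem_image_of_mem _ hp, Finset.mem_univ _⟩
        _ = 2 * (s.image Prod.fst).card := by simp [mul_comm]
        _ ≤ _ := e ▸ hU _ (hs.image _)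
  choose u hu he using fun p => Finset.mem_image.1 (hmem p)
  let v : G × Bool → Fin U.card := fun p => U.equivFin ⟨u p, hu p⟩
  let c : Fin U.card → G := fun i => (U.equivFin.symm i : G)
  have hv : ∀ p, c (v p) * p.1 = φ p := fun p => by simp [c, v, he]
  refine ⟨U.card, U.card, fun i => {g | v (g, false) = i}, fun i => {g | v (g, true) = i}, c, c,
    fun i j hij => Set.disjoint_left.2 fun g hi hj => hij (hi.symm.trans hj), by ext; simp,
    fun i j hij => Set.disjoint_left.2 fun g hi hj => hij (hi.symm.trans hj), by ext; simp, ?_⟩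
  rintro (i | i) (j | j) hij <;> refine Set.disjoint_left.2 ?_ <;>
    rintro _ ⟨g, rfl, rfl⟩ ⟨g', rfl, e⟩ <;> dsimp only at e <;>
    rw [hv (g', _), hv (g, _)] at e <;>
    first
      | exact Bool.false_ne_true (congrArg Prod.snd (hinj e))
      | exact Bool.false_ne_true (congrArg Prod.snd (hinj e)).symm
      | (obtain rfl : g' = g := congrArg Prod.fst (hinj e)
         exact hij rfl)

omit [DecidableEq G] in
/-- **A paradoxical decomposition excludes a mean.** -/
theorem not_isAmenable_of_isParadoxical (h : IsParadoxical G) : ¬ IsAmenable G := by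
  classical
  obtain ⟨k, l, A, B, a, b, hA, hAu, hB, hBu, hd⟩ := h
  rintro ⟨m, h0, hadd, h1, hinv⟩
  have he : m ∅ = 0 := by simpa using hadd ∅ ∅ (Set.disjoint_empty _)
  have mU : ∀ {ι : Type} [Fintype ι] (P : ι → Set G), Pairwise (Disjoint on P) →
      m (⋃ i, P i) = ∑ i, m (P i) := fun {ι} _ P hP => by
    have key : ∀ s : Finset ι, m (⋃ i ∈ s, P i) = ∑ i ∈ s, m (P i) := fun s => by
      induction s using Finset.induction_on with
      | empty => simp [he]
      | insert i s hi ih =>
        rw [Finset.set_biUnion_insert, hadd _ _ ?_, ih, Finset.sum_insert hi]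
        exact Set.disjoint_iUnion₂_right.2 fun j hj => hP fun e => hi (e ▸ hj)
    simpa using key Finset.univ
  let C := Sum.elim (fun i => (a i * ·) '' A i) (fun j => (b j * ·) '' B j)
  have h2 := mU C hd
  simp only [Fintype.sum_sum_type, C, Sum.elim_inl, Sum.elim_inr, hinv, ← mU A hA, ← mU B hB,
    hAu, hBu, h1] at h2
  have hle : m (⋃ i, C i) ≤ 1 := by
    have := hadd _ _ (disjoint_compl_right (a := ⋃ i, C i))
    rw [Set.union_compl_self, h1] at this
    linarith [h0 (⋃ i, C i)ᶜ]
  linarith

/-- **Følner's criterion.** -/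
theorem isAmenable_iff_isFolner : IsAmenable G ↔ IsFolner G :=
  ⟨fun h => by_contra fun hn =>
      not_isAmenable_of_isParadoxical (isParadoxical_of_not_isFolner hn) h,
    fun h => h.hasMean.isAmenable⟩

omit [DecidableEq G] in
/-- **Tarski's alternative.** -/
theorem not_isAmenable_iff_isParadoxical : ¬ IsAmenable G ↔ IsParadoxical G := by
  classical
  exact ⟨fun h => isParadoxical_of_not_isFolner fun hf => h hf.hasMean.isAmenable,
    not_isAmenable_of_isParadoxical⟩

omit [DecidableEq G] in
/-- A mean on sets gives one on bounded functions. -/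
theorem IsAmenable.hasMean (h : IsAmenable G) : HasMean G := by
  classical
  exact (isAmenable_iff_isFolner.1 h).hasMean

/-- **Groups of subexponential growth are amenable.** -/
theorem isFolner_of_subexponential
    (h : ∀ (S : Finset G) (c : ℝ), 1 < c → ∀ᶠ n in atTop, ((S ^ n).card : ℝ) ≤ c ^ n) :
    IsFolner G := by
  intro S ε hε
  by_contra hn
  push Not at hn
  let T := insert 1 S
  have hne : ∀ n, (T ^ n).Nonempty := fun n => (Finset.insert_nonempty 1 S).pow
  have grow : ∀ n, (1 + ε) ^ n ≤ ((T ^ n).card : ℝ) := by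
    intro n
    induction n with
    | zero => simp
    | succ n ih =>
      obtain ⟨s, hs, hlt⟩ := hn (T ^ n) (hne n)
      have hsub : T ^ n ∪ ((T ^ n).image (s * ·) \ T ^ n) ⊆ T ^ (n + 1) := by
        rw [pow_succ']
        intro x hx
        rcases Finset.mem_union.1 hx with hx | hx
        · simpa using Finset.mul_mem_mul (Finset.mem_insert_self 1 S) hx
        · obtain ⟨y, hy, rfl⟩ := Finset.mem_image.1 (Finset.mem_sdiff.1 hx).1
          exact Finset.mul_mem_mul (Finset.mem_insert_of_mem hs) hy
      have hle := Finset.card_le_card hsub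
      rw [Finset.card_union_of_disjoint Finset.disjoint_sdiff] at hle
      have hle' : ((T ^ n).card : ℝ) + (((T ^ n).image (s * ·) \ T ^ n).card : ℝ) ≤
          (T ^ (n + 1)).card := by exact_mod_cast hle
      rw [pow_succ']
      nlinarith
  obtain ⟨n, hn1, hn2⟩ :=
    ((h T (1 + ε / 2) (by linarith)).and (eventually_ge_atTop 1)).exists
  exact (pow_lt_pow_left₀ (show 1 + ε / 2 < 1 + ε by linarith) (by linarith) (by omega)).not_ge
    ((grow n).trans hn1)

end FA.Amenable

end
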