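import Fermat.Agent.Amenable.Mean
import Mathlib.GroupTheory.FreeGroup.Reduce
import Mathlib.Tactic.Linarith

/-!
# Amenable groups have no free subgroups

Amenability passes to subgroups and quotients, and the free group of rank two is paradoxical.
-/

set_option autoImplicit false

noncomputable section

namespace FA.Amenable

variable {G H : Type*} [Group G] [Group H]

/-- A subgroup of an amenable group is amenable: pull the mean back along coset representatives. -/
theorem IsAmenable.of_injective (hG : IsAmenable G) (f : H →* G) (hf : Function.Injective f) :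
    IsAmenable H := by
  obtain ⟨m, h0, hadd, h1, hinv⟩ := hG
  let r : Setoid G := QuotientGroup.rightRel f.range
  have hmem : ∀ x : G, x * (Quotient.mk r x).out⁻¹ ∈ f.range := fun x =>
    QuotientGroup.rightRel_apply.1 (Quotient.mk_out (s := r) x)
  choose π hπ using hmem
  have key : ∀ h x, π (f h * x) = h * π x := fun h x => by
    have e : Quotient.mk r (f h * x) = Quotient.mk r x :=
      Quotient.sound (QuotientGroup.rightRel_apply.2 (by simp))
    apply hf
    rw [map_mul, hπ, hπ, e, mul_assoc]
  refine ⟨fun A => m (π ⁻¹' A), fun A => h0 _, fun A B hAB => ?_, h1, fun h A => ?_⟩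
  · exact hadd _ _ (hAB.preimage π)
  · show m _ = m _
    rw [← hinv (f h) (π ⁻¹' A)]
    congr 1
    ext x
    simp only [Set.mem_preimage, Set.image_mul_left, ← map_inv, key]

/-- A quotient of an amenable group is amenable. -/
theorem IsAmenable.of_surjective (hG : IsAmenable G) (q : G →* H) (hq : Function.Surjective q) :
    IsAmenable H := by
  obtain ⟨m, h0, hadd, h1, hinv⟩ := hG
  refine ⟨fun A => m (q ⁻¹' A), fun A => h0 _, fun A B hAB => hadd _ _ (hAB.preimage q), h1,
    fun h A => ?_⟩
  obtain ⟨g, rfl⟩ := hq h
  show m _ = m _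
  rw [← hinv g (q ⁻¹' A)]
  congr 1
  ext x
  simp

theorem IsAmenable.of_finite [Finite G] : IsAmenable G := hasMean_of_finite.isAmenable

/-- The words beginning with a given letter. -/
def firstLetter {α : Type*} [DecidableEq α] (p : α × Bool) : Set (FreeGroup α) :=
  {x | x.toWord.head? = some p}

theorem disjoint_firstLetter {α : Type*} [DecidableEq α] {p p' : α × Bool} (h : p ≠ p') :
    Disjoint (firstLetter p) (firstLetter p') :=
  Set.disjoint_left.2 fun _ hx hx' => h (Option.some.inj (hx.symm.trans hx'))

theorem univ_subset_firstLetter {α : Type*} [DecidableEq α] (a : α) :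
    Set.univ ⊆ firstLetter (a, true) ∪ (FreeGroup.of a * ·) '' firstLetter (a, false) := by
  intro x _
  by_cases hx : x ∈ firstLetter (a, true)
  · exact Or.inl hx
  · refine Or.inr ⟨(FreeGroup.of a)⁻¹ * x, ?_, mul_inv_cancel_left _ x⟩
    have e : ((FreeGroup.of a)⁻¹ * x).toWord = FreeGroup.reduce ((a, false) :: x.toWord) := by
      conv_lhs => rw [← FreeGroup.mk_toWord (x := x)]
      rfl
    show List.head? _ = _
    rw [e, FreeGroup.reduce.cons, FreeGroup.reduce_toWord]
    change ¬ x.toWord.head? = _ at hx
    cases hw : x.toWord with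
    | nil => rfl
    | cons hd tl =>
      rw [hw] at hx
      rcases hd with ⟨b, _ | _⟩
      · simp
      · have hb : a ≠ b := fun h => hx (by rw [h]; rfl)
        simp [hb]

/-- **The free group of rank two is not amenable.** -/
theorem not_isAmenable_freeGroup : ¬ IsAmenable (FreeGroup (Fin 2)) := by
  rintro ⟨m, h0, hadd, h1, hinv⟩
  have mono : ∀ A B, A ⊆ B → m A ≤ m B := fun A B h => by
    rw [← Set.union_sdiff_cancel h, hadd _ _ Set.disjoint_sdiff_right]
    linarith [h0 (B \ A)]
  have sub : ∀ A B, m (A ∪ B) ≤ m A + m B := fun A B => by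
    rw [← Set.union_sdiff_self, hadd _ _ Set.disjoint_sdiff_right]
    linarith [mono (B \ A) B Set.sdiff_subset]
  have one : ∀ a : Fin 2, 1 ≤ m (firstLetter (a, true) ∪ firstLetter (a, false)) := fun a => by
    rw [hadd _ _ (disjoint_firstLetter (by simp))]
    have := (mono _ _ (univ_subset_firstLetter a)).trans (sub _ _)
    rwa [h1, hinv] at this
  have hd : Disjoint (firstLetter ((0 : Fin 2), true) ∪ firstLetter ((0 : Fin 2), false))
      (firstLetter ((1 : Fin 2), true) ∪ firstLetter ((1 : Fin 2), false)) := by
    simp [disjoint_firstLetter]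
  have := mono _ _ (Set.subset_univ ((firstLetter ((0 : Fin 2), true) ∪
    firstLetter ((0 : Fin 2), false)) ∪
    (firstLetter ((1 : Fin 2), true) ∪ firstLetter ((1 : Fin 2), false))))
  rw [hadd _ _ hd, h1] at this
  linarith [one 0, one 1]

/-- A group with a free subgroup of rank two is not amenable. -/
theorem not_isAmenable_of_free (f : FreeGroup (Fin 2) →* G) (hf : Function.Injective f) :
    ¬ IsAmenable G := fun h => not_isAmenable_freeGroup (h.of_injective f hf)

end FA.Amenable

end
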