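import Fermat.Agent.Amenable.Free
import Fermat.Agent.Root.SummaryTitsAlternative
import Mathlib.GroupTheory.Solvable

/-!
# Amenable linear groups

Virtually solvable groups are amenable, so by the Tits alternative a linear group in characteristic
zero is amenable exactly when it contains no free group of rank two.
-/

set_option autoImplicit false

noncomputable section

namespace FA.Amenable

theorem hasMean_of_derivedSeries.{u} : ∀ (n : ℕ) {G : Type u} [Group G],
    derivedSeries G n = ⊥ → HasMean G := by
  intro n
  induction n with
  | zero =>
    intro G _ h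
    rw [derivedSeries_zero] at h
    have : Subsingleton G := subsingleton_iff.2 fun x y => by
      have hx : x ∈ (⊥ : Subgroup G) := h ▸ Subgroup.mem_top x
      have hy : y ∈ (⊥ : Subgroup G) := h ▸ Subgroup.mem_top y
      rw [Subgroup.mem_bot.1 hx, Subgroup.mem_bot.1 hy]
    exact hasMean_of_finite
  | succ n ih =>
    intro G _ h
    rw [derivedSeries_succ] at h
    have := derivedSeries_normal G n
    let _ : CommGroup (derivedSeries G n) :=
      { (derivedSeries G n).toGroup with
        mul_comm := fun a b => Subtype.ext
          (commutatorElement_eq_one_iff_mul_comm.1 (Subgroup.mem_bot.1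
            (h ▸ Subgroup.commutator_mem_commutator a.2 b.2))) }
    refine hasMean_of_extension (derivedSeries G n) hasMean_of_comm (ih ?_)
    rw [← map_derivedSeries_eq (QuotientGroup.mk'_surjective (derivedSeries G n)),
      QuotientGroup.map_mk'_self]

theorem hasMean_of_isSolvable {G : Type*} [Group G] (h : Group.IsSolvable G) : HasMean G := by
  obtain ⟨n, hn⟩ := h.solvable
  exact hasMean_of_derivedSeries n hn

theorem hasMean_of_virtuallySolvable {G : Type*} [Group G]
    (h : ∃ H : Subgroup G, H.FiniteIndex ∧ Group.IsSolvable H) : HasMean G := by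
  obtain ⟨H, hH, hs⟩ := h
  have hN : Group.IsSolvable H.normalCore :=
    Group.isSolvable_of_isSolvable_injective (f := Subgroup.inclusion H.normalCore_le)
      (Subgroup.inclusion_injective _)
  exact hasMean_of_extension H.normalCore (hasMean_of_isSolvable hN) hasMean_of_finite

/-- **Amenable linear groups.** -/
theorem isAmenable_iff_no_free {K : Type*} [Field K] [CharZero K] {n : ℕ}
    (G : Subgroup (Matrix.GeneralLinearGroup (Fin n) K)) :
    IsAmenable G ↔ ¬ ∃ f : FreeGroup (Fin 2) →* G, Function.Injective f := by
  refine ⟨fun h ⟨f, hf⟩ => not_isAmenable_of_free f hf h, fun h =>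
    (hasMean_of_fg fun H hH => ?_).isAmenable⟩
  have : Group.FG H := (Group.fg_iff_subgroup_fg _).2 hH
  refine hasMean_of_virtuallySolvable ((FA.Summary.tits_alternative_of_faithful
    (G.subtype.comp H.subtype) (G.subtype_injective.comp H.subtype_injective)).resolve_right ?_)
  exact fun ⟨f, hf⟩ => h ⟨H.subtype.comp f, H.subtype_injective.comp hf⟩

end FA.Amenable

end
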