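import Mathlib.Algebra.Order.Ring.Abs
import Mathlib.Algebra.Order.BigOperators.Group.Finset
import Mathlib.Data.Real.Basic
import Mathlib.Algebra.Notation.Indicator
import Mathlib.Algebra.BigOperators.Ring.Finset
import Mathlib.Algebra.BigOperators.Field
import Mathlib.Analysis.SpecificLimits.Normed
import Mathlib.GroupTheory.Finiteness
import Mathlib.GroupTheory.Index
import Mathlib.GroupTheory.QuotientGroup.Basic
import Mathlib.Order.Filter.AtTopBot.Finset
import Mathlib.Order.Filter.Ultrafilter.Basic
import Mathlib.Topology.Instances.Real.Lemmas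
import Mathlib.Topology.MetricSpace.ProperSpace
import Mathlib.Topology.MetricSpace.Pseudo.Lemmas

/-!
# Invariant means

A group is amenable when it has a finitely additive left-invariant probability mean on all subsets.
Means on bounded functions are easier to build: from asymptotically invariant families along an
ultrafilter, and for an extension by iterating the means of the subgroup and the quotient.
-/

set_option autoImplicit false

noncomputable section

open Filter
open scoped Topology

namespace FA.Amenable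

/-- **Amenable group**: there is a set function on all subsets that is nonnegative, additive on
disjoint sets, equal to `1` on the whole group and invariant under left translations. -/
def IsAmenable (G : Type*) [Group G] : Prop :=
  ∃ m : Set G → ℝ, (∀ A, 0 ≤ m A) ∧ (∀ A B, Disjoint A B → m (A ∪ B) = m A + m B) ∧
    m Set.univ = 1 ∧ ∀ (g : G) (A : Set G), m ((g * ·) '' A) = m A

variable {G : Type*}

/-- A bounded function. -/
def Bdd (f : G → ℝ) : Prop := ∃ k : ℕ, ∀ x, |f x| ≤ k

theorem Bdd.of_le {f : G → ℝ} (C : ℝ) (h : ∀ x, |f x| ≤ C) : Bdd f :=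
  ⟨⌈C⌉₊, fun x => (h x).trans (Nat.le_ceil C)⟩

theorem bdd_const (c : ℝ) : Bdd fun _ : G => c := Bdd.of_le |c| fun _ => le_rfl

theorem Bdd.add {f g : G → ℝ} (hf : Bdd f) (hg : Bdd g) : Bdd (f + g) := by
  obtain ⟨k, hk⟩ := hf
  obtain ⟨l, hl⟩ := hg
  exact ⟨k + l, fun x => (abs_add_le _ _).trans (by push_cast; exact add_le_add (hk x) (hl x))⟩

theorem Bdd.sub {f g : G → ℝ} (hf : Bdd f) (hg : Bdd g) : Bdd fun x => f x - g x := by
  obtain ⟨k, hk⟩ := hf
  obtain ⟨l, hl⟩ := hg
  exact ⟨k + l, fun x => (abs_sub _ _).trans (by push_cast; exact add_le_add (hk x) (hl x))⟩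

theorem Bdd.comp {H : Type*} {f : G → ℝ} (hf : Bdd f) (u : H → G) : Bdd fun x => f (u x) :=
  hf.imp fun _ hk x => hk (u x)

/-- A positive additive normalised functional on the bounded functions. -/
structure IsMean (M : (G → ℝ) → ℝ) : Prop where
  /-- additivity -/
  map_add : ∀ f g, Bdd f → Bdd g → M (f + g) = M f + M g
  /-- positivity -/
  nonneg : ∀ f, Bdd f → (∀ x, 0 ≤ f x) → 0 ≤ M f
  /-- normalisation -/
  map_one : M (fun _ => 1) = 1

theorem IsMean.mono {M : (G → ℝ) → ℝ} (hM : IsMean M) {f g : G → ℝ} (hf : Bdd f) (hg : Bdd g)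
    (h : ∀ x, f x ≤ g x) : M f ≤ M g := by
  have e : M g = M f + M (fun x => g x - f x) := by
    rw [← hM.map_add _ _ hf (hg.sub hf)]
    congr 1
    funext x
    simp
  linarith [hM.nonneg _ (hg.sub hf) fun x => sub_nonneg.2 (h x)]

theorem IsMean.map_natCast {M : (G → ℝ) → ℝ} (hM : IsMean M) (k : ℕ) :
    M (fun _ => (k : ℝ)) = k := by
  induction k with
  | zero =>
    have h := hM.map_add _ _ (bdd_const (G := G) 0) (bdd_const 0)
    simp only [Pi.add_def, add_zero] at h
    rw [Nat.cast_zero]
    linarith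
  | succ k ih =>
    rw [show (fun _ : G => ((k + 1 : ℕ) : ℝ)) = (fun _ => (k : ℝ)) + fun _ => 1 from
      funext fun _ => by simp, hM.map_add _ _ (bdd_const _) (bdd_const _), ih, hM.map_one]
    simp

theorem IsMean.abs_map_le {M : (G → ℝ) → ℝ} (hM : IsMean M) {f : G → ℝ} {k : ℕ}
    (h : ∀ x, |f x| ≤ k) : |M f| ≤ k := by
  have hf : Bdd f := ⟨k, h⟩
  have h0 := hM.mono hf (bdd_const (k : ℝ)) fun x => (abs_le.1 (h x)).2
  have h1 := hM.mono (bdd_const 0) (hf.add (bdd_const (k : ℝ))) fun x => by
    simp only [Pi.add_apply]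
    linarith [(abs_le.1 (h x)).1]
  rw [hM.map_natCast] at h0
  rw [hM.map_add _ _ hf (bdd_const _), hM.map_natCast] at h1
  have h2 := hM.map_natCast 0
  rw [Nat.cast_zero] at h2
  rw [abs_le]
  constructor <;> linarith

/-- An invariant mean on the bounded functions. -/
def HasMean (G : Type*) [Group G] : Prop :=
  ∃ M : (G → ℝ) → ℝ, IsMean M ∧ ∀ g f, Bdd f → M (fun x => f (g * x)) = M f

theorem HasMean.isAmenable [Group G] (h : HasMean G) : IsAmenable G := by
  obtain ⟨M, hM, hinv⟩ := h
  have hb : ∀ A : Set G, Bdd (A.indicator fun _ => (1 : ℝ)) := fun A =>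
    ⟨1, fun x => by by_cases hx : x ∈ A <;> simp [hx]⟩
  refine ⟨fun A => M (A.indicator fun _ => (1 : ℝ)), fun A => hM.nonneg _ (hb A) fun x => ?_,
    fun A B hAB => ?_, ?_, fun g A => ?_⟩
  · by_cases hx : x ∈ A <;> simp [hx]
  · dsimp only
    rw [← hM.map_add _ _ (hb A) (hb B), Set.indicator_union_of_disjoint hAB]
    rfl
  · simpa using hM.map_one
  · have h := hinv g⁻¹ _ (hb A)
    dsimp only
    rw [← h]
    congr 1
    funext x
    by_cases hx : g⁻¹ * x ∈ A <;> simp [hx]

/-- **Asymptotically invariant means give an invariant one.** -/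
theorem hasMean_of_asymptotic [Group G] {ι : Type*} (l : Filter ι) [l.NeBot]
    (M : ι → (G → ℝ) → ℝ) (hM : ∀ i, IsMean (M i))
    (h : ∀ g f, Bdd f → Tendsto (fun i => M i (fun x => f (g * x)) - M i f) l (𝓝 0)) :
    HasMean G := by
  classical
  let U := Ultrafilter.of l
  have hex : ∀ f : G → ℝ, Bdd f → ∃ a, Tendsto (fun i => M i f) U (𝓝 a) := fun f ⟨k, hk⟩ => by
    obtain ⟨a, -, ha⟩ := (isCompact_Icc (a := -(k : ℝ)) (b := k)).ultrafilter_le_nhds
      (U.map fun i => M i f) (le_principal_iff.2 (Ultrafilter.mem_map.2 (univ_mem' fun i =>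
        abs_le.1 ((hM i).abs_map_le hk))))
    exact ⟨a, ha⟩
  let L : (G → ℝ) → ℝ := fun f => if hf : Bdd f then (hex f hf).choose else 0
  have hL : ∀ f, Bdd f → Tendsto (fun i => M i f) U (𝓝 (L f)) := fun f hf => by
    simp only [L, dif_pos hf]
    exact (hex f hf).choose_spec
  refine ⟨L, ⟨fun f g hf hg => ?_, fun f hf h0 => ?_, ?_⟩, fun g f hf => ?_⟩
  · exact tendsto_nhds_unique ((hL _ (hf.add hg)).congr fun i => (hM i).map_add f g hf hg)
      ((hL f hf).add (hL g hg))
  · exact ge_of_tendsto' (hL f hf) fun i => (hM i).nonneg f hf h0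
  · exact tendsto_nhds_unique ((hL _ (bdd_const 1)).congr fun i => (hM i).map_one)
      tendsto_const_nhds
  · have h1 := (hL _ (hf.comp (g * ·))).sub (hL f hf)
    exact sub_eq_zero.1 (tendsto_nhds_unique h1 ((h g f hf).mono_left (Ultrafilter.of_le l)))

/-- An extension. -/
theorem hasMean_of_extension [Group G] (N : Subgroup G) [N.Normal] (hN : HasMean N)
    (hQ : HasMean (G ⧸ N)) : HasMean G := by
  obtain ⟨ν, hν, hνi⟩ := hN
  obtain ⟨μ, hμ, hμi⟩ := hQ
  let φ : (G → ℝ) → G ⧸ N → ℝ := fun f q => ν fun n : N => f (q.out * n)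
  have hφ : ∀ f, Bdd f → Bdd (φ f) := fun f ⟨k, hk⟩ => ⟨k, fun q => hν.abs_map_le fun n => hk _⟩
  refine ⟨fun f => μ (φ f), ⟨fun f g hf hg => ?_, fun f hf h0 => ?_, ?_⟩, fun g f hf => ?_⟩
  · rw [← hμ.map_add _ _ (hφ f hf) (hφ g hg)]
    congr 1
    funext q
    exact hν.map_add _ _ (hf.comp _) (hg.comp _)
  · exact hμ.nonneg _ (hφ f hf) fun q => hν.nonneg _ (hf.comp _) fun n => h0 _
  · rw [show φ (fun _ => 1) = fun _ => 1 from funext fun q => hν.map_one]
    exact hμ.map_one
  · dsimp only
    rw [← hμi (QuotientGroup.mk g) (φ f) (hφ f hf)]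
    congr 1
    funext q
    have hq : ((g : G) : G ⧸ N) * q = ((g * q.out : G) : G ⧸ N) := by
      rw [QuotientGroup.mk_mul, QuotientGroup.out_eq']
    set q' := (g : G ⧸ N) * q
    have hn : q'.out⁻¹ * (g * q.out) ∈ N := by
      rw [← QuotientGroup.eq, QuotientGroup.out_eq', hq]
    rw [show φ f q' = ν fun n : N => f (q'.out * n) from rfl,
      ← hνi ⟨_, hn⟩ _ (hf.comp fun n : N => q'.out * n)]
    simp [φ, mul_assoc]

/-- Finite groups. -/
theorem hasMean_of_finite [Group G] [Finite G] : HasMean G := by
  classical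
  have := Fintype.ofFinite G
  have hc : (0 : ℝ) < Fintype.card G := by exact_mod_cast Fintype.card_pos
  refine ⟨fun f => (∑ x, f x) / Fintype.card G, ⟨fun f g _ _ => ?_, fun f _ h => ?_, ?_⟩,
    fun g f _ => ?_⟩
  · simp [Finset.sum_add_distrib, add_div]
  · exact div_nonneg (Finset.sum_nonneg fun x _ => h x) hc.le
  · simp [hc.ne']
  · dsimp only
    congr 1
    exact Fintype.sum_equiv (Equiv.mulLeft g) _ _ fun x => rfl

/-- A directed union. -/
theorem hasMean_of_fg [Group G] (h : ∀ H : Subgroup G, H.FG → HasMean H) : HasMean G := by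
  classical
  have hS : ∀ S : Finset G, (Subgroup.closure (S : Set G)).FG := fun S => ⟨S, rfl⟩
  choose ν hν hinv using fun S => h _ (hS S)
  refine hasMean_of_asymptotic (atTop : Filter (Finset G))
    (fun S f => ν S fun x => f x) (fun S => ?_) fun g f hf => ?_
  · exact ⟨fun f g hf hg => (hν S).map_add _ _ (hf.comp _) (hg.comp _),
      fun f hf h0 => (hν S).nonneg _ (hf.comp _) fun x => h0 _, (hν S).map_one⟩
  · refine tendsto_const_nhds.congr' ((eventually_ge_atTop {g}).mono fun S hgS => ?_)
    have hmem : g ∈ Subgroup.closure (S : Set G) :=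
      Subgroup.subset_closure (Finset.singleton_subset_iff.1 hgS)
    dsimp only
    rw [show (fun x : Subgroup.closure (S : Set G) => f (g * x)) =
      fun x => f ((⟨g, hmem⟩ * x : Subgroup.closure (S : Set G)) : G) from rfl,
      hinv S ⟨g, hmem⟩ (fun x => f x) (hf.comp _), sub_self]

/-- Averages along the first powers of the members of a list. -/
def average [CommGroup G] (N : ℕ) : List G → (G → ℝ) → G → ℝ
  | [], f => f
  | t :: l, f => fun x => (∑ j ∈ Finset.range (N + 1), average N l f (t ^ j * x)) / (N + 1)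

theorem average_le [CommGroup G] {N : ℕ} (l : List G) {f : G → ℝ} {C : ℝ} (h : ∀ x, |f x| ≤ C)
    (x : G) : |average N l f x| ≤ C := by
  induction l generalizing x with
  | nil => exact h x
  | cons t l ih =>
    rw [average, abs_div, abs_of_pos (show (0 : ℝ) < N + 1 by positivity),
      div_le_iff₀ (by positivity)]
    refine (Finset.abs_sum_le_sum_abs _ _).trans ((Finset.sum_le_sum fun j _ => ih _).trans ?_)
    rw [Finset.sum_const, Finset.card_range, nsmul_eq_mul]
    push_cast
    linarith

theorem average_translate [CommGroup G] (N : ℕ) (l : List G) (f : G → ℝ) (g x : G) :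
    average N l (fun y => f (g * y)) x = average N l f (g * x) := by
  induction l generalizing x with
  | nil => rfl
  | cons t l ih =>
    simp only [average]
    congr 1
    exact Finset.sum_congr rfl fun j _ => by rw [ih, mul_left_comm]

theorem average_sub [CommGroup G] (N : ℕ) (l : List G) (f g : G → ℝ) (x : G) :
    average N l (fun y => f y - g y) x = average N l f x - average N l g x := by
  induction l generalizing x with
  | nil => rfl
  | cons t l ih => simp only [average, ih, Finset.sum_sub_distrib, sub_div]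

theorem isMean_average [CommGroup G] (N : ℕ) (l : List G) :
    IsMean fun f => average N l f (1 : G) := by
  suffices h : ∀ x : G, IsMean fun f => average N l f x from h 1
  induction l with
  | nil => exact fun x => ⟨fun f g _ _ => rfl, fun f _ h => h x, rfl⟩
  | cons t l ih =>
    intro x
    have hc : (0 : ℝ) < (N : ℝ) + 1 := by positivity
    refine ⟨fun f g hf hg => ?_, fun f hf h => ?_, ?_⟩
    · simp only [average, (ih _).map_add f g hf hg, Finset.sum_add_distrib, add_div]
    · exact div_nonneg (Finset.sum_nonneg fun j _ => (ih _).nonneg f hf h) hc.le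
    · simp [average, (ih _).map_one, hc.ne']

theorem average_defect [CommGroup G] (N : ℕ) {l : List G} {s : G} (hs : s ∈ l) {f : G → ℝ} {C : ℝ}
    (hf : ∀ x, |f x| ≤ C) (x : G) :
    |average N l (fun y => f (s * y)) x - average N l f x| ≤ 2 * C / (N + 1) := by
  induction l generalizing x with
  | nil => simp at hs
  | cons t l ih =>
    have hc : (0 : ℝ) < (N : ℝ) + 1 := by positivity
    have hC : 0 ≤ C := (abs_nonneg _).trans (hf x)
    simp only [average]
    rw [← sub_div, ← Finset.sum_sub_distrib, abs_div, abs_of_pos hc, div_le_div_iff_of_pos_right hc]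
    rcases eq_or_ne s t with rfl | hne
    · have e : ∀ j : ℕ, average N l (fun y => f (s * y)) (s ^ j * x) - average N l f (s ^ j * x) =
          average N l f (s ^ (j + 1) * x) - average N l f (s ^ j * x) := fun j => by
        rw [average_translate, pow_succ', mul_assoc]
      rw [Finset.sum_congr rfl fun j _ => e j,
        Finset.sum_range_sub fun j => average N l f (s ^ j * x)]
      have h1 := average_le (N := N) l hf (s ^ (N + 1) * x)
      have h0 := average_le (N := N) l hf (s ^ 0 * x)
      exact (abs_sub _ _).trans (by linarith)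
    · refine (Finset.abs_sum_le_sum_abs _ _).trans ((Finset.sum_le_sum fun j _ =>
        ih ((List.mem_cons.1 hs).resolve_left hne) _).trans ?_)
      rw [Finset.sum_const, Finset.card_range, nsmul_eq_mul]
      push_cast
      rw [mul_div_cancel₀ _ hc.ne']

/-- Abelian groups. -/
theorem hasMean_of_comm [CommGroup G] : HasMean G := by
  classical
  refine hasMean_of_asymptotic ((atTop : Filter (Finset G)) ×ˢ (atTop : Filter ℕ))
    (fun i f => average i.2 i.1.toList f 1) (fun i => isMean_average _ _) fun g f ⟨k, hk⟩ => ?_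
  refine squeeze_zero_norm' ((tendsto_fst.eventually (eventually_ge_atTop {g})).mono fun i hi => ?_)
    ((tendsto_const_div_atTop_nhds_zero_nat (2 * (k : ℝ))).comp
      ((tendsto_add_atTop_nat 1).comp tendsto_snd))
  rw [Real.norm_eq_abs]
  simp only [Function.comp_apply, Nat.cast_add, Nat.cast_one]
  exact average_defect i.2 (Finset.mem_toList.2 (Finset.singleton_subset_iff.1 hi)) hk 1

end FA.Amenable

end
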